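/-
Helper library (helper2): vanishing of cusp forms of small level via the Sturm bound of the
prelude, and an index bound for `Gamma0 2`.
-/
import Mathlib
import Fermat.Prelude.Def_FLTPrelim_Modularity
import Fermat.Prelude.Thm_ModularForm_sturm_bound_Gamma0
import Fermat.Prelude.Thm_CongruenceSubgroup_one_mem_strictPeriods_Gamma0

set_option autoImplicit false

open CuspForm ModularFormClass UpperHalfPlane ModularForm
open scoped MatrixGroups

namespace Fermat.Agent.Lib.Level

/-- The monoid hom from `SL(2,ℤ)` to linear automorphisms of `(ZMod 2)^2`. -/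
noncomputable def actHom : SL(2, ℤ) →* ((Fin 2 → ZMod 2) ≃ₗ[ZMod 2] (Fin 2 → ZMod 2)) :=
  Matrix.SpecialLinearGroup.toLin'.comp (Matrix.SpecialLinearGroup.map (Int.castRingHom (ZMod 2)))

/-- `Gamma0 2` is the stabiliser of a vector in a set of size `4`, so has index at most `4`. -/
theorem index_Gamma0_two_le : (CongruenceSubgroup.Gamma0 2).index ≤ 4 := by
  let _ : MulAction SL(2, ℤ) (Fin 2 → ZMod 2) := MulAction.compHom (Fin 2 → ZMod 2) actHom
  have hsmul : ∀ (g : SL(2, ℤ)) (v : Fin 2 → ZMod 2), g • v = actHom g v := fun g v => rfl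
  have hstab : CongruenceSubgroup.Gamma0 2 =
      MulAction.stabilizer SL(2, ℤ) (![1, 0] : Fin 2 → ZMod 2) := by
    ext g
    rw [MulAction.mem_stabilizer_iff, hsmul, CongruenceSubgroup.Gamma0_mem]
    have hdet : ((g 0 0 : ℤ) : ZMod 2) * ((g 1 1 : ℤ) : ZMod 2)
        - ((g 0 1 : ℤ) : ZMod 2) * ((g 1 0 : ℤ) : ZMod 2) = 1 := by
      have := g.det_coe
      rw [Matrix.det_fin_two] at this
      have h2 := congrArg (Int.cast : ℤ → ZMod 2) this
      push_cast at h2
      exact h2
    have hact : actHom g ![1, 0] = ![((g 0 0 : ℤ) : ZMod 2), ((g 1 0 : ℤ) : ZMod 2)] := by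
      ext i
      fin_cases i <;>
      simp [actHom, Matrix.SpecialLinearGroup.toLin'_apply, Matrix.mulVec, dotProduct,
        Fin.sum_univ_two, Matrix.SpecialLinearGroup.map_apply_coe]
    rw [hact]
    constructor
    · intro h
      rw [h] at hdet ⊢
      simp only [mul_zero, sub_zero] at hdet
      have : ((g 0 0 : ℤ) : ZMod 2) = 1 := by
        generalize ((g 0 0 : ℤ) : ZMod 2) = a at hdet
        generalize ((g 1 1 : ℤ) : ZMod 2) = d at hdet
        revert a d; decide
      rw [this]
    · intro h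
      have := congrFun h 1
      simpa using this
  rw [hstab, MulAction.index_stabilizer]
  calc (MulAction.orbit SL(2, ℤ) (![1, 0] : Fin 2 → ZMod 2)).ncard
      ≤ Nat.card (Fin 2 → ZMod 2) := Set.ncard_le_card _
    _ = 4 := by simp

/-- `Gamma0 1` is everything. -/
theorem Gamma0_one_eq_top : CongruenceSubgroup.Gamma0 1 = ⊤ := by
  ext g
  simp only [CongruenceSubgroup.Gamma0_mem, Subgroup.mem_top, iff_true]
  exact Subsingleton.elim _ _

theorem index_Gamma0_one : (CongruenceSubgroup.Gamma0 1).index = 1 := by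
  rw [Gamma0_one_eq_top, Subgroup.index_top]

/-- A cusp form on `Gamma0 N` all of whose `q`-expansion coefficients of positive index up to the
Sturm bound vanish is zero. -/
theorem cuspForm_eq_zero_of_qCoeff_eq_zero {N : ℕ} [NeZero N] {k : ℤ}
    (f : CuspForm (CongruenceSubgroup.Gamma0 N) k)
    (h : ∀ n : ℕ, 1 ≤ n → n ≤ (k * (CongruenceSubgroup.Gamma0 N).index).toNat / 12 →
      qCoeff f n = 0) : f = 0 := by
  have hmf : (ModularFormClass.modularForm f :
      ModularForm (CongruenceSubgroup.Gamma0 N) k) = 0 := by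
    refine ModularForm.sturm_bound_Gamma0 N _ fun n hn ↦ ?_
    rcases Nat.eq_zero_or_pos n with rfl | hpos
    · exact CuspFormClass.qExpansion_coeff_zero f one_pos
        (CongruenceSubgroup.one_mem_strictPeriods_Gamma0 N)
    · exact h n hpos hn
  have hcoe : (⇑f : ℍ → ℂ) = 0 := by
    have := congrArg (fun F : ModularForm (CongruenceSubgroup.Gamma0 N) k ↦ (⇑F : ℍ → ℂ)) hmf
    simpa using this
  exact DFunLike.ext _ _ fun z ↦ by simpa using congrFun hcoe z

/-- If the Sturm bound is `0`, there are no nonzero cusp forms. -/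
theorem cuspForm_eq_zero_of_sturm_eq_zero {N : ℕ} [NeZero N] {k : ℤ}
    (hB : (k * (CongruenceSubgroup.Gamma0 N).index).toNat / 12 = 0)
    (f : CuspForm (CongruenceSubgroup.Gamma0 N) k) : f = 0 := by
  refine cuspForm_eq_zero_of_qCoeff_eq_zero f fun n h1 h2 ↦ ?_
  omega

end Fermat.Agent.Lib.Level
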